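import Mathlib.Analysis.SpecialFunctions.Log.Basic
import Mathlib.NumberTheory.DiophantineApproximation.Basic
import Mathlib.NumberTheory.Real.Irrational
import Mathlib.Tactic

/-!
# Products of powers of two independent integers

If no positive powers of `p` and `q` agree, the numbers `p ^ m * q ^ n` have ratios tending to one
and the quotients `p ^ m / q ^ n` are dense among the positive reals.
-/

set_option autoImplicit false

noncomputable section

namespace FA.TimesTwoTimesThree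

/-- No power of `p` is a power of `q`, apart from `1`. -/
def Independent (p q : ℕ) : Prop := ∀ m n : ℕ, p ^ m = q ^ n → m = 0 ∧ n = 0

theorem log_pos {p : ℕ} (hp : 1 < p) : 0 < Real.log p := Real.log_pos (by exact_mod_cast hp)

theorem irrational_log_ratio {p q : ℕ} (hp : 1 < p) (hq : 1 < q) (h : Independent p q) :
    Irrational (Real.log p / Real.log q) := by
  rintro ⟨r, hr⟩
  have hlp := log_pos hp
  have hlq := log_pos hq
  have hr0 : 0 < r := by
    have h0 := div_pos hlp hlq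
    rw [← hr] at h0
    exact_mod_cast h0
  obtain ⟨a, ha⟩ := Int.eq_ofNat_of_zero_le (Rat.num_pos.2 hr0).le
  have e : (r.den : ℝ) * Real.log p = (a : ℝ) * Real.log q := by
    rw [eq_div_iff hlq.ne'] at hr
    rw [← hr, ← mul_assoc]
    congr 1
    have : (r.den : ℝ) * r = (r.num : ℝ) := by
      rw [mul_comm]
      exact_mod_cast Rat.mul_den_eq_num r
    rw [this, ha, Int.cast_natCast]
  have e' : (p : ℝ) ^ r.den = (q : ℝ) ^ a :=
    Real.log_injOn_pos (Set.mem_Ioi.2 (by positivity)) (Set.mem_Ioi.2 (by positivity))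
      (by rw [Real.log_pow, Real.log_pow, e])
  exact r.den_ne_zero (h _ _ (by exact_mod_cast e')).1

/-- Small positive combinations. -/
theorem exists_small {p q : ℕ} (hp : 1 < p) (hq : 1 < q) (h : Independent p q) {δ : ℝ}
    (hδ : 0 < δ) : ∃ a b : ℕ, (0 < (a : ℝ) * Real.log p - b * Real.log q ∧
      (a : ℝ) * Real.log p - b * Real.log q < δ) ∨
      (0 < (b : ℝ) * Real.log q - a * Real.log p ∧ (b : ℝ) * Real.log q - a * Real.log p < δ) := by
  have hlp := log_pos hp
  have hlq := log_pos hq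
  set ξ := Real.log p / Real.log q with hξ
  obtain ⟨n, hn⟩ := exists_nat_gt (Real.log q / δ)
  have hn0 : 0 < n := Nat.cast_pos.1 ((div_pos hlq hδ).trans hn)
  obtain ⟨j, k, hk0, -, hjk⟩ := Real.exists_int_int_abs_mul_sub_le ξ hn0
  have hξ0 : 0 < ξ := div_pos hlp hlq
  have hlt : |(k : ℝ) * ξ - j| * Real.log q < δ := by
    refine lt_of_le_of_lt (mul_le_mul_of_nonneg_right hjk hlq.le) ?_
    rw [div_lt_iff₀ hδ] at hn
    rw [div_mul_eq_mul_div, one_mul, div_lt_iff₀ (by positivity)]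
    linarith
  have hj : 0 ≤ j := by
    by_contra! hneg
    have hk1 : (1 : ℝ) ≤ k := by exact_mod_cast hk0
    have hj1 : (j : ℝ) ≤ -1 := by exact_mod_cast (show j ≤ -1 by omega)
    have := (le_abs_self _).trans hjk
    have h1 : 1 / ((n : ℝ) + 1) ≤ 1 := by
      rw [div_le_one (by positivity)]
      linarith [(Nat.cast_nonneg n : (0 : ℝ) ≤ n)]
    nlinarith
  obtain ⟨a, rfl⟩ := Int.eq_ofNat_of_zero_le hk0.le
  obtain ⟨b, rfl⟩ := Int.eq_ofNat_of_zero_le hj
  simp only [Int.cast_natCast] at hlt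
  have hne : (a : ℝ) * ξ - b ≠ 0 := fun h0 => by
    refine ((irrational_log_ratio hp hq h).natCast_mul (m := a) (by omega)).ne_nat b ?_
    linarith
  have e : ((a : ℝ) * ξ - b) * Real.log q = a * Real.log p - b * Real.log q := by
    rw [hξ]
    field_simp
  refine ⟨a, b, ?_⟩
  rcases hne.lt_or_gt with hneg | hpos
  · refine Or.inr ?_
    rw [abs_of_neg hneg, neg_mul, e] at hlt
    have := mul_neg_of_neg_of_pos hneg hlq
    rw [e] at this
    exact ⟨by linarith, by linarith⟩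
  · refine Or.inl ?_
    rw [abs_of_pos hpos, e] at hlt
    exact ⟨by rw [← e]; positivity, hlt⟩

/-- **The combinations are eventually dense.** -/
theorem exists_combination {p q : ℕ} (hp : 1 < p) (hq : 1 < q) (h : Independent p q) {δ : ℝ}
    (hδ : 0 < δ) : ∃ T : ℝ, ∀ x, T ≤ x → ∃ m n : ℕ,
      x ≤ m * Real.log p + n * Real.log q ∧ m * Real.log p + n * Real.log q < x + δ := by
  obtain ⟨m₁, n₁, m₂, n₂, hB, h0, hlt⟩ : ∃ m₁ n₁ m₂ n₂ : ℕ,
      0 ≤ (m₂ : ℝ) * Real.log p + n₂ * Real.log q ∧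
      0 < ((m₁ : ℝ) * Real.log p + n₁ * Real.log q) - (m₂ * Real.log p + n₂ * Real.log q) ∧
      ((m₁ : ℝ) * Real.log p + n₁ * Real.log q) - (m₂ * Real.log p + n₂ * Real.log q) < δ := by
    have := log_pos hp
    have := log_pos hq
    obtain ⟨a, b, ⟨h1, h2⟩ | ⟨h1, h2⟩⟩ := exists_small hp hq h hδ
    · exact ⟨a, 0, 0, b, by positivity, by push_cast; linarith, by push_cast; linarith⟩
    · exact ⟨0, b, a, 0, by positivity, by push_cast; linarith, by push_cast; linarith⟩
  set A := (m₁ : ℝ) * Real.log p + n₁ * Real.log q with hA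
  set B := (m₂ : ℝ) * Real.log p + n₂ * Real.log q with hBdef
  have hA0 : 0 < A := by linarith
  have hval : ∀ i j : ℕ, ∃ m n : ℕ, (m : ℝ) * Real.log p + n * Real.log q = i * A + j * B :=
    fun i j => ⟨i * m₁ + j * m₂, i * n₁ + j * n₂, by push_cast [hA, hBdef]; ring⟩
  refine ⟨B * (B / (A - B) + 1), fun x hx => ?_⟩
  rcases hB.eq_or_lt with hB0 | hBpos
  · obtain ⟨m, n, e⟩ := hval ⌈x / A⌉₊ 0
    have hx0 : 0 ≤ x := le_trans (by rw [← hB0, zero_mul]) hx
    refine ⟨m, n, ?_, ?_⟩ <;> rw [e, Nat.cast_zero, zero_mul, add_zero]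
    · exact (div_le_iff₀ hA0).1 (Nat.le_ceil _)
    · have := Nat.ceil_lt_add_one (div_nonneg hx0 hA0.le)
      rw [← sub_lt_iff_lt_add, lt_div_iff₀ hA0] at this
      linarith
  have hx0 : 0 ≤ x := le_trans (mul_nonneg hB (add_nonneg (div_nonneg hB h0.le) zero_le_one)) hx
  set K := ⌊x / B⌋₊ with hK
  have hK1 : (K : ℝ) * B ≤ x := (le_div_iff₀ hBpos).1 (Nat.floor_le (div_nonneg hx0 hB))
  have hK2 : x < ((K : ℝ) + 1) * B := (div_lt_iff₀ hBpos).1 (Nat.lt_floor_add_one _)
  have hKbig : B ≤ (K : ℝ) * (A - B) := by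
    have h1 : B * (B / (A - B) + 1) < ((K : ℝ) + 1) * B := lt_of_le_of_lt hx hK2
    have h2 : B / (A - B) < K := by
      have := lt_of_mul_lt_mul_left (by linarith : B * (B / (A - B) + 1) < B * ((K : ℝ) + 1)) hB
      linarith
    exact ((div_lt_iff₀ h0).1 h2).le
  set i := ⌈(x - K * B) / (A - B)⌉₊ with hi
  have hiK : i ≤ K := Nat.ceil_le.2 (by rw [div_le_iff₀ h0]; linarith)
  obtain ⟨m, n, e⟩ := hval i (K - i)
  refine ⟨m, n, ?_, ?_⟩ <;> rw [e, Nat.cast_sub hiK]
  · have := (div_le_iff₀ h0).1 (Nat.le_ceil ((x - K * B) / (A - B)))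
    rw [← hi] at this
    linarith
  · have := Nat.ceil_lt_add_one (div_nonneg (sub_nonneg.2 hK1) h0.le)
    rw [← hi, ← sub_lt_iff_lt_add, lt_div_iff₀ h0] at this
    linarith

/-- The products are eventually dense in ratio. -/
theorem exists_product {p q : ℕ} (hp : 1 < p) (hq : 1 < q) (h : Independent p q) {ε : ℝ}
    (hε : 0 < ε) : ∃ N : ℝ, 0 < N ∧ ∀ y, N ≤ y → ∃ m n : ℕ,
      y ≤ ((p ^ m * q ^ n : ℕ) : ℝ) ∧ ((p ^ m * q ^ n : ℕ) : ℝ) < y * (1 + ε) := by
  obtain ⟨T, hT⟩ := exists_combination hp hq h (Real.log_pos (by linarith : (1 : ℝ) < 1 + ε))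
  refine ⟨Real.exp T, Real.exp_pos T, fun y hy => ?_⟩
  have hy0 : 0 < y := (Real.exp_pos T).trans_le hy
  obtain ⟨m, n, h1, h2⟩ := hT (Real.log y) ((Real.le_log_iff_exp_le hy0).2 hy)
  have he : ((p ^ m * q ^ n : ℕ) : ℝ) = Real.exp (m * Real.log p + n * Real.log q) := by
    rw [Real.exp_add, Real.exp_nat_mul, Real.exp_nat_mul, Real.exp_log (by positivity),
      Real.exp_log (by positivity)]
    push_cast
    rfl
  refine ⟨m, n, ?_, ?_⟩ <;> rw [he]
  · exact (Real.log_le_iff_le_exp hy0).1 h1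
  · calc Real.exp (m * Real.log p + n * Real.log q) < Real.exp (Real.log y + Real.log (1 + ε)) :=
          Real.exp_lt_exp.2 h2
      _ = y * (1 + ε) := by rw [Real.exp_add, Real.exp_log hy0, Real.exp_log (by linarith)]

/-- **The quotients are dense.** -/
theorem exists_quotient {p q : ℕ} (hp : 1 < p) (hq : 1 < q) (h : Independent p q) {a b : ℝ}
    (ha : 0 < a) (hab : a < b) :
    ∃ m n : ℕ, a < (p : ℝ) ^ m / (q : ℝ) ^ n ∧ (p : ℝ) ^ m / (q : ℝ) ^ n < b := by
  have hlp := log_pos hp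
  have hlq := log_pos hq
  have hb : 0 < b := ha.trans hab
  have hlog : Real.log a < Real.log b := Real.log_lt_log ha hab
  suffices key : ∃ m n : ℕ, Real.log a < m * Real.log p - n * Real.log q ∧
      (m : ℝ) * Real.log p - n * Real.log q < Real.log b by
    obtain ⟨m, n, h1, h2⟩ := key
    have e : Real.exp (m * Real.log p - n * Real.log q) = (p : ℝ) ^ m / (q : ℝ) ^ n := by
      rw [Real.exp_sub, Real.exp_nat_mul, Real.exp_nat_mul, Real.exp_log (by positivity),
        Real.exp_log (by positivity)]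
    refine ⟨m, n, ?_, ?_⟩ <;> rw [← e]
    · exact (Real.log_lt_iff_lt_exp ha).1 h1
    · exact (Real.lt_log_iff_exp_lt hb).1 h2
  -- the least multiple of `d` beyond a positive point
  have step : ∀ d u : ℝ, 0 < d → 0 ≤ u → ∃ k : ℕ, u < k * d ∧ (k : ℝ) * d ≤ u + d := by
    intro d u hd hu
    refine ⟨⌊u / d⌋₊ + 1, ?_, ?_⟩ <;> push_cast
    · exact (div_lt_iff₀ hd).1 (Nat.lt_floor_add_one _)
    · have := (le_div_iff₀ hd).1 (Nat.floor_le (div_nonneg hu hd.le))
      linarith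
  obtain ⟨a', b', ⟨h1, h2⟩ | ⟨h1, h2⟩⟩ := exists_small hp hq h (sub_pos.2 hlog)
  · obtain ⟨N, hN⟩ := exists_nat_ge (-Real.log a / Real.log q)
    rw [div_le_iff₀ hlq] at hN
    obtain ⟨k, hk1, hk2⟩ := step _ (Real.log a + N * Real.log q) h1 (by linarith)
    exact ⟨k * a', k * b' + N, by push_cast; linarith, by push_cast; linarith⟩
  · obtain ⟨M, hM⟩ := exists_nat_ge (Real.log b / Real.log p)
    rw [div_le_iff₀ hlp] at hM
    obtain ⟨k, hk1, hk2⟩ := step _ (M * Real.log p - Real.log b) h1 (by linarith)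
    exact ⟨M + k * a', k * b', by push_cast; linarith, by push_cast; linarith⟩

end FA.TimesTwoTimesThree

end
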