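import Fermat.Agent.TimesTwoTimesThree.Log
import Mathlib.FieldTheory.Finite.Basic
import Mathlib.Topology.Algebra.Group.Pointwise
import Mathlib.Topology.Instances.AddCircle.Defs
import Mathlib.Topology.Instances.Real.Lemmas

/-!
# Furstenberg's theorem on times `p`, times `q`

A closed set of reals modulo one, mapped to itself by multiplication by two independent integers,
is finite or everything. The proof is Boshernitzan's.
-/

set_option autoImplicit false

noncomputable section

open scoped Pointwise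
open Filter

namespace FA.TimesTwoTimesThree

/-- Closed, one-periodic and mapped to itself by multiplication by `p` and by `q`. -/
structure Inv (p q : ℕ) (A : Set ℝ) : Prop where
  closed : IsClosed A
  translate : ∀ x ∈ A, ∀ k : ℤ, x + k ∈ A
  left : ∀ x ∈ A, (p : ℝ) * x ∈ A
  right : ∀ x ∈ A, (q : ℝ) * x ∈ A

theorem Independent.pow {p q : ℕ} (h : Independent p q) {u v : ℕ} (hu : 0 < u) (hv : 0 < v) :
    Independent (p ^ u) (q ^ v) := fun m n e => by
  rw [← pow_mul, ← pow_mul] at e
  obtain ⟨h1, h2⟩ := h _ _ e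
  exact ⟨(mul_eq_zero.1 h1).resolve_left hu.ne', (mul_eq_zero.1 h2).resolve_left hv.ne'⟩

variable {p q : ℕ} {A : Set ℝ}

theorem Inv.pow_left (hA : Inv p q A) (m : ℕ) {x : ℝ} (hx : x ∈ A) : (p : ℝ) ^ m * x ∈ A := by
  induction m with
  | zero => simpa using hx
  | succ m ih =>
    rw [pow_succ', mul_assoc]
    exact hA.left _ ih

theorem Inv.pow_right (hA : Inv p q A) (n : ℕ) {x : ℝ} (hx : x ∈ A) : (q : ℝ) ^ n * x ∈ A := by
  induction n with
  | zero => simpa using hx
  | succ n ih =>
    rw [pow_succ', mul_assoc]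
    exact hA.right _ ih

theorem Inv.fract_mem (hA : Inv p q A) {x : ℝ} (hx : x ∈ A) : Int.fract x ∈ A := by
  have := hA.translate _ hx (-⌊x⌋)
  rwa [Int.cast_neg, ← sub_eq_add_neg] at this

theorem Inv.neg (hA : Inv p q A) : Inv p q (-A) where
  closed := hA.closed.preimage continuous_neg
  translate x hx k := by
    have := hA.translate _ hx (-k)
    rw [Set.mem_neg, neg_add]
    rwa [Int.cast_neg] at this
  left x hx := by
    rw [Set.mem_neg, ← mul_neg]
    exact hA.left _ hx
  right x hx := by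
    rw [Set.mem_neg, ← mul_neg]
    exact hA.right _ hx

/-- Small positive points force everything. -/
theorem eq_univ_of_small_pos (hp : 1 < p) (hq : 1 < q) (h : Independent p q) (hA : Inv p q A)
    (h0 : ∀ ε > 0, ∃ x ∈ A, 0 < x ∧ x < ε) : A = Set.univ := by
  have key : ∀ Y ∈ Set.Icc (1 : ℝ) 2, Y ∈ A := by
    intro Y hY
    rw [← hA.closed.closure_eq, Metric.mem_closure_iff]
    intro ε hε
    obtain ⟨N, hN0, hN⟩ := exists_product hp hq h (show 0 < ε / 4 by linarith)
    obtain ⟨t, htA, ht0, ht⟩ := h0 (1 / N) (by positivity)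
    have hy : N ≤ Y / t := by
      rw [le_div_iff₀ ht0]
      rw [lt_div_iff₀ hN0] at ht
      linarith [hY.1]
    obtain ⟨m, n, h1, h2⟩ := hN _ hy
    push_cast at h1 h2
    refine ⟨(p : ℝ) ^ m * ((q : ℝ) ^ n * t), hA.pow_left m (hA.pow_right n htA), ?_⟩
    rw [← mul_assoc, Real.dist_eq, abs_sub_comm, abs_lt]
    rw [div_le_iff₀ ht0] at h1
    rw [div_mul_eq_mul_div, lt_div_iff₀ ht0] at h2
    exact ⟨by linarith, by nlinarith [hY.2]⟩
  refine Set.eq_univ_of_forall fun y => ?_
  have := hA.translate _ (key (Int.fract y + 1)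
    ⟨by linarith [Int.fract_nonneg y], by linarith [Int.fract_lt_one y]⟩) (⌊y⌋ - 1)
  rw [Int.cast_sub, Int.cast_one] at this
  convert this using 1
  linarith [Int.fract_add_floor y]

/-- Small nonzero points force everything. -/
theorem eq_univ_of_small (hp : 1 < p) (hq : 1 < q) (h : Independent p q) (hA : Inv p q A)
    (h0 : ∀ ε > 0, ∃ x ∈ A, x ≠ 0 ∧ |x| < ε) : A = Set.univ := by
  by_cases hpos : ∀ ε > 0, ∃ x ∈ A, 0 < x ∧ x < ε
  · exact eq_univ_of_small_pos hp hq h hA hpos
  · push Not at hpos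
    obtain ⟨δ, hδ, hbad⟩ := hpos
    have hn : -A = Set.univ := eq_univ_of_small_pos hp hq h hA.neg fun ε hε => by
      obtain ⟨x, hxA, hx0, hx⟩ := h0 (min ε δ) (lt_min hε hδ)
      obtain ⟨hx1, hx2⟩ := lt_min_iff.1 hx
      rw [abs_lt] at hx1 hx2
      have hneg : x < 0 := by
        rcases hx0.lt_or_gt with hlt | hgt
        · exact hlt
        · linarith [hbad x hxA hgt]
      exact ⟨-x, by rwa [Set.mem_neg, neg_neg], by linarith, by linarith⟩
    refine Set.eq_univ_of_forall fun y => ?_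
    have : -y ∈ -A := hn.symm ▸ Set.mem_univ _
    rwa [Set.mem_neg, neg_neg] at this

/-- The accumulation points. -/
def accSet (A : Set ℝ) : Set ℝ := {x | ∀ ε > 0, ∃ y ∈ A, y ≠ x ∧ |y - x| < ε}

theorem Inv.accSet_subset (hA : Inv p q A) : accSet A ⊆ A := fun x hx => by
  rw [← hA.closed.closure_eq, Metric.mem_closure_iff]
  intro ε hε
  obtain ⟨y, hy, -, hlt⟩ := hx ε hε
  exact ⟨y, hy, by rw [Real.dist_eq, abs_sub_comm]; exact hlt⟩

theorem isClosed_accSet (A : Set ℝ) : IsClosed (accSet A) := by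
  refine isClosed_of_closure_subset fun x hx ε hε => ?_
  by_cases hmem : x ∈ accSet A
  · exact hmem ε hε
  obtain ⟨z, hz, hzx⟩ := Metric.mem_closure_iff.1 hx (ε / 2) (by linarith)
  rw [Real.dist_eq] at hzx
  have hne : z ≠ x := fun e => hmem (e ▸ hz)
  obtain ⟨y, hy, -, hlt⟩ := hz (min (ε / 2) |z - x|)
    (lt_min (by linarith) (abs_pos.2 (sub_ne_zero.2 hne)))
  obtain ⟨hl1, hl2⟩ := lt_min_iff.1 hlt
  refine ⟨y, hy, fun e => ?_, ?_⟩
  · rw [e, abs_sub_comm] at hl2
    exact lt_irrefl _ hl2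
  · calc |y - x| ≤ |y - z| + |z - x| := abs_sub_le _ _ _
      _ < ε := by rw [abs_sub_comm z x]; linarith

theorem accSet_mul {c : ℝ} (hc : 0 < c) (hA : ∀ x ∈ A, c * x ∈ A) {x : ℝ} (hx : x ∈ accSet A) :
    c * x ∈ accSet A := fun ε hε => by
  obtain ⟨y, hy, hne, hlt⟩ := hx (ε / c) (div_pos hε hc)
  refine ⟨c * y, hA _ hy, fun e => hne (mul_left_cancel₀ hc.ne' e), ?_⟩
  rw [← mul_sub, abs_mul, abs_of_pos hc]
  rwa [lt_div_iff₀ hc, mul_comm] at hlt

theorem Inv.accSet (hA : Inv p q A) (hp : 1 < p) (hq : 1 < q) :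
    Inv p q (TimesTwoTimesThree.accSet A) where
  closed := isClosed_accSet A
  translate x hx k ε hε := by
    obtain ⟨y, hy, hne, hlt⟩ := hx ε hε
    exact ⟨y + k, hA.translate _ hy k, fun e => hne (add_right_cancel e),
      by rwa [add_sub_add_right_eq_sub]⟩
  left x hx := accSet_mul (by positivity) hA.left hx
  right x hx := accSet_mul (by positivity) hA.right hx

/-- An infinite set of residues has an accumulation point in the unit interval. -/
theorem Inv.exists_acc (hA : Inv p q A) (hinf : (A ∩ Set.Ico 0 1).Infinite) :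
    ∃ z ∈ A ∩ Set.Icc 0 1, ∀ ε > 0, ∃ y ∈ A ∩ Set.Icc 0 1, y ≠ z ∧ |y - z| < ε := by
  have hK : IsCompact (A ∩ Set.Icc 0 1) := isCompact_Icc.inter_left hA.closed
  have hsub : A ∩ Set.Ico 0 1 ⊆ A ∩ Set.Icc 0 1 :=
    Set.inter_subset_inter_right _ Set.Ico_subset_Icc_self
  obtain ⟨z, hz, hacc⟩ := hinf.exists_accPt_of_subset_isCompact hK hsub
  refine ⟨z, hz, fun ε hε => ?_⟩
  obtain ⟨y, ⟨hy1, hy2⟩, hne⟩ := accPt_iff_nhds.1 hacc _ (Metric.ball_mem_nhds z hε)
  exact ⟨y, hsub hy2, hne, by rwa [Metric.mem_ball, Real.dist_eq] at hy1⟩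

/-- Two of the residues of `p ^ i * a` agree. -/
theorem exists_pow_period (p : ℕ) (a : ℤ) {b : ℕ} (hb : 0 < b) :
    ∃ i u : ℕ, 0 < u ∧ ∃ k : ℤ, (p : ℤ) ^ u * ((p : ℤ) ^ i * a) = (p : ℤ) ^ i * a + b * k := by
  have : NeZero b := ⟨hb.ne'⟩
  obtain ⟨i, j, hne, he⟩ := Finite.exists_ne_map_eq_of_infinite
    fun i : ℕ => (((p : ℤ) ^ i * a : ℤ) : ZMod b)
  wlog hij : i < j generalizing i j
  · exact this j i hne.symm he.symm (lt_of_le_of_ne (not_lt.1 hij) hne.symm)
  obtain ⟨k, hk⟩ := (ZMod.intCast_eq_intCast_iff_dvd_sub _ _ b).1 he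
  refine ⟨i, j - i, Nat.sub_pos_of_lt hij, k, ?_⟩
  rw [← mul_assoc, ← pow_add, Nat.sub_add_cancel hij.le]
  linarith

/-- A rational accumulation point forces everything. -/
theorem eq_univ_of_rat_acc (hp : 1 < p) (hq : 1 < q) (h : Independent p q) (hA : Inv p q A)
    {r : ℚ} (hr : (r : ℝ) ∈ accSet A) : A = Set.univ := by
  have hacc := hA.accSet hp hq
  have hb : 0 < r.den := r.pos
  have hb' : (0 : ℝ) < r.den := by exact_mod_cast hb
  have hre : (r : ℝ) = (r.num : ℝ) / r.den := Rat.cast_def r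
  obtain ⟨i, u, hu, k, hk⟩ := exists_pow_period p r.num hb
  obtain ⟨l, v, hv, k', hk'⟩ := exists_pow_period q ((p : ℤ) ^ i * r.num) hb
  set r₂ : ℝ := (q : ℝ) ^ l * ((p : ℝ) ^ i * r) with hr₂
  have hr₂A : r₂ ∈ accSet A := hacc.pow_right l (hacc.pow_left i hr)
  have hkR : (p : ℝ) ^ u * ((p : ℝ) ^ i * r.num) = (p : ℝ) ^ i * r.num + r.den * k := by
    exact_mod_cast hk
  have hkR' : (q : ℝ) ^ v * ((q : ℝ) ^ l * ((p : ℝ) ^ i * r.num)) =
      (q : ℝ) ^ l * ((p : ℝ) ^ i * r.num) + r.den * k' := by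
    exact_mod_cast hk'
  have e1 : (p : ℝ) ^ u * r₂ = r₂ + (((q : ℤ) ^ l * k : ℤ) : ℝ) := by
    rw [hr₂, hre]
    push_cast
    field_simp
    linear_combination hkR
  have e2 : (q : ℝ) ^ v * r₂ = r₂ + (k' : ℝ) := by
    rw [hr₂, hre]
    field_simp
    linear_combination hkR'
  have hA' : Inv (p ^ u) (q ^ v) {x | x + r₂ ∈ A} :=
    { closed := hA.closed.preimage (continuous_id.add continuous_const)
      translate := fun x hx m => by
        show x + m + r₂ ∈ A
        rw [add_right_comm]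
        exact hA.translate _ hx m
      left := fun x hx => by
        show ((p ^ u : ℕ) : ℝ) * x + r₂ ∈ A
        have := hA.translate _ (hA.pow_left u hx) (-((q : ℤ) ^ l * k))
        rw [mul_add, e1, Int.cast_neg] at this
        convert this using 1
        push_cast
        ring
      right := fun x hx => by
        show ((q ^ v : ℕ) : ℝ) * x + r₂ ∈ A
        have := hA.translate _ (hA.pow_right v hx) (-k')
        rw [mul_add, e2, Int.cast_neg] at this
        convert this using 1
        push_cast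
        ring }
  have huniv := eq_univ_of_small (Nat.one_lt_pow hu.ne' hp) (Nat.one_lt_pow hv.ne' hq)
    (h.pow hu hv) hA' fun ε hε => by
      obtain ⟨y, hy, hne, hlt⟩ := hr₂A ε hε
      exact ⟨y - r₂, by show y - r₂ + r₂ ∈ A; rwa [sub_add_cancel], sub_ne_zero.2 hne, hlt⟩
  refine Set.eq_univ_of_forall fun y => ?_
  have : y - r₂ ∈ {x : ℝ | x + r₂ ∈ A} := huniv.symm ▸ Set.mem_univ _
  simpa using this

/-- The orbit of an irrational point is infinite modulo one. -/
theorem Inv.infinite_of_irrational (hA : Inv p q A) (hp : 1 < p) {x : ℝ} (hx : x ∈ A)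
    (hirr : Irrational x) : (A ∩ Set.Ico 0 1).Infinite := by
  refine Set.infinite_of_injective_forall_mem (f := fun i : ℕ => Int.fract ((p : ℝ) ^ i * x))
    ?_ fun i => ⟨hA.fract_mem (hA.pow_left i hx), Int.fract_nonneg _, Int.fract_lt_one _⟩
  intro i j hij
  by_contra hne
  obtain ⟨z, hz⟩ := Int.fract_eq_fract.1 hij
  have hpp : (p : ℤ) ^ i - (p : ℤ) ^ j ≠ 0 :=
    sub_ne_zero.2 fun e => hne (Nat.pow_right_injective hp (by exact_mod_cast e))
  refine (hirr.intCast_mul hpp).ne_int z ?_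
  push_cast
  linarith

/-- A set containing strings of length `t` at spacing `1 / t`. -/
theorem exists_string (hp : 1 < p) (hq : 1 < q) (h : Independent p q) (hA : Inv p q A)
    (hne : A.Nonempty) (hirr : ∀ x ∈ A, Irrational x) {t : ℕ} (ht : 1 < t)
    (htp : Nat.Coprime p t) (htq : Nat.Coprime q t) :
    ∀ i : ℕ, ∃ x, ∀ j ≤ i, x + (j : ℝ) / t ∈ A := by
  have hu : 0 < Nat.totient t := Nat.totient_pos.2 (by omega)
  set u := Nat.totient t with hudef
  obtain ⟨c, hc⟩ : ∃ c : ℤ, (p : ℤ) ^ u = 1 + t * c := by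
    obtain ⟨c, hc⟩ := (Nat.modEq_iff_dvd.1 (Nat.ModEq.pow_totient htp).symm)
    push_cast at hc
    exact ⟨c, by linarith⟩
  obtain ⟨d, hd⟩ : ∃ d : ℤ, (q : ℤ) ^ u = 1 + t * d := by
    obtain ⟨c, hc⟩ := (Nat.modEq_iff_dvd.1 (Nat.ModEq.pow_totient htq).symm)
    push_cast at hc
    exact ⟨c, by linarith⟩
  have hcR : (p : ℝ) ^ u = 1 + t * c := by exact_mod_cast hc
  have hdR : (q : ℝ) ^ u = 1 + t * d := by exact_mod_cast hd
  have htR : (0 : ℝ) < t := by exact_mod_cast (by omega : 0 < t)
  intro i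
  induction i with
  | zero =>
    obtain ⟨x, hx⟩ := hne
    exact ⟨x, fun j hj => by simpa [Nat.le_zero.1 hj] using hx⟩
  | succ i ih =>
    set B : Set ℝ := {x | ∀ j ≤ i, x + (j : ℝ) / t ∈ A} with hBdef
    have hB : Inv (p ^ u) (q ^ u) B :=
      { closed := by
          simp only [hBdef, Set.ofPred_forall]
          exact isClosed_iInter fun j => isClosed_iInter fun _ =>
            hA.closed.preimage (continuous_id.add continuous_const)
        translate := fun x hx m j hj => by
          rw [add_right_comm]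
          exact hA.translate _ (hx j hj) m
        left := fun x hx j hj => by
          have := hA.translate _ (hA.pow_left u (hx j hj)) (-(c * j))
          convert this using 1
          push_cast
          field_simp
          rw [hcR]
          ring
        right := fun x hx j hj => by
          have := hA.translate _ (hA.pow_right u (hx j hj)) (-(d * j))
          convert this using 1
          push_cast
          field_simp
          rw [hdR]
          ring }
    obtain ⟨x₀, hx₀⟩ := ih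
    have hBirr : Irrational x₀ := hirr _ (by simpa using hx₀ 0 (Nat.zero_le _))
    have hP := Nat.one_lt_pow hu.ne' hp
    obtain ⟨z, hz, hzacc⟩ := hB.exists_acc (hB.infinite_of_irrational hP hx₀ hBirr)
    set K : Set ℝ := B ∩ Set.Icc 0 1 with hKdef
    have hK : IsCompact K := isCompact_Icc.inter_left hB.closed
    -- an element of `-K` after multiplication and reduction
    have step : ∀ (c' : ℝ), (∀ x ∈ B, c' * x ∈ B) → ∀ x ∈ B + -K, c' * x ∈ B + -K := by
      rintro c' hc' _ ⟨b, hb, w, hw, rfl⟩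
      rw [Set.mem_neg] at hw
      refine ⟨c' * b + ((-⌊c' * -w⌋ : ℤ) : ℝ), hB.translate _ (hc' _ hb) _,
        -Int.fract (c' * -w), ?_, ?_⟩
      · rw [Set.mem_neg, neg_neg]
        exact ⟨hB.fract_mem (hc' _ hw.1), Int.fract_nonneg _, (Int.fract_lt_one _).le⟩
      · simp only [Int.fract, Int.cast_neg]
        ring
    have hD : Inv (p ^ u) (q ^ u) (B + -K) :=
      { closed := hB.closed.add_right_of_isCompact hK.neg
        translate := fun x hx m => by
          obtain ⟨b, hb, w, hw, rfl⟩ := hx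
          exact ⟨b + m, hB.translate _ hb m, w, hw, add_right_comm b (m : ℝ) w⟩
        left := step _ hB.left
        right := step _ hB.right }
    have huniv := eq_univ_of_small hP (Nat.one_lt_pow hu.ne' hq) (h.pow hu hu) hD fun ε hε => by
      obtain ⟨y, hy, hne', hlt⟩ := hzacc ε hε
      exact ⟨y + -z, Set.add_mem_add hy.1 (Set.neg_mem_neg.2 hz),
        by rwa [← sub_eq_add_neg, sub_ne_zero], by rwa [← sub_eq_add_neg]⟩
    obtain ⟨b, hb, w, hw, he⟩ : (1 : ℝ) / t ∈ B + -K := huniv.symm ▸ Set.mem_univ _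
    rw [Set.mem_neg] at hw
    refine ⟨-w, fun j hj => ?_⟩
    rcases Nat.le_succ_iff.1 hj with hj' | rfl
    · exact hw.1 j hj'
    · convert hb i le_rfl using 1
      have he' : b + w = 1 / t := he
      push_cast
      field_simp at he' ⊢
      linarith

/-- An invariant set without rational points is empty. -/
theorem eq_empty_of_irrational (hp : 1 < p) (hq : 1 < q) (h : Independent p q) (hA : Inv p q A)
    (hirr : ∀ x ∈ A, Irrational x) : A = ∅ := by
  by_contra hne
  rw [← Ne, ← Set.nonempty_iff_ne_empty] at hne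
  have h0 : (0 : ℝ) ∈ A := by
    rw [← hA.closed.closure_eq, Metric.mem_closure_iff]
    intro ε hε
    obtain ⟨N, hN⟩ := exists_nat_gt (1 / ε)
    set t := p * q * (N + 1) + 1 with htdef
    have hbig : N + 1 ≤ p * q * (N + 1) := Nat.le_mul_of_pos_left _ (by positivity)
    have ht : 1 < t := by omega
    have htR : (0 : ℝ) < t := by exact_mod_cast (by omega : 0 < t)
    have hcop : ∀ a b : ℕ, Nat.Coprime a (a * b + 1) := fun a b => by
      rw [Nat.coprime_mul_left_add_right]
      exact Nat.coprime_one_right _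
    have htp : Nat.Coprime p t := by
      rw [htdef, mul_assoc]
      exact hcop _ _
    have htq : Nat.Coprime q t := by
      rw [htdef, mul_comm p q, mul_assoc]
      exact hcop _ _
    obtain ⟨x, hx⟩ := exists_string hp hq h hA hne hirr ht htp htq t
    set j := ⌊Int.fract (-x) * t⌋₊ with hj
    have hf := mul_nonneg (Int.fract_nonneg (-x)) htR.le
    have hjt : j ≤ t := Nat.floor_le_of_le (by nlinarith [Int.fract_lt_one (-x)])
    refine ⟨x + j / t + (⌊-x⌋ : ℤ), hA.translate _ (hx j hjt) _, ?_⟩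
    have h1 : (j : ℝ) ≤ Int.fract (-x) * t := Nat.floor_le hf
    have h2 : Int.fract (-x) * t < j + 1 := Nat.lt_floor_add_one _
    have e : x + (j : ℝ) / t + (⌊-x⌋ : ℤ) = (j : ℝ) / t - Int.fract (-x) := by
      rw [Int.fract]
      ring
    have hgap : Int.fract (-x) - (j : ℝ) / t < 1 / t := by
      rw [lt_div_iff₀ htR, sub_mul, div_mul_cancel₀ _ htR.ne']
      linarith
    have hle : (j : ℝ) / t ≤ Int.fract (-x) := (div_le_iff₀ htR).2 h1
    have hsmall : 1 / (t : ℝ) < ε := by
      rw [div_lt_iff₀ htR]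
      rw [div_lt_iff₀ hε] at hN
      have : (N : ℝ) ≤ t := by exact_mod_cast (by omega : N ≤ t)
      nlinarith
    rw [e, Real.dist_eq, abs_lt]
    exact ⟨by linarith, by linarith⟩
  exact hirr 0 h0 ⟨0, Rat.cast_zero⟩

/-- **Furstenberg's theorem.** -/
theorem eq_univ_of_infinite (hp : 1 < p) (hq : 1 < q) (h : Independent p q) (hA : Inv p q A)
    (hinf : (A ∩ Set.Ico 0 1).Infinite) : A = Set.univ := by
  by_contra hne
  obtain ⟨z, -, hz⟩ := hA.exists_acc hinf
  have hzmem : z ∈ accSet A := fun ε hε => by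
    obtain ⟨y, hy, hyne, hlt⟩ := hz ε hε
    exact ⟨y, hy.1, hyne, hlt⟩
  have he := eq_empty_of_irrational hp hq h (hA.accSet hp hq) fun x hx => by
    by_contra hrat
    rw [irrational_iff_ne_rational] at hrat
    push Not at hrat
    obtain ⟨a, b, -, rfl⟩ := hrat
    exact hne (eq_univ_of_rat_acc hp hq h hA (r := (a : ℚ) / b) (by simpa using hx))
  rw [he] at hzmem
  exact hzmem

/-- A finite invariant set of residues consists of rationals. -/
theorem rational_of_finite (hp : 1 < p) (hA : Inv p q A) (hfin : (A ∩ Set.Ico 0 1).Finite)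
    {x : ℝ} (hx : x ∈ A) : ∃ r : ℚ, (r : ℝ) = x := by
  by_contra hirr
  exact hA.infinite_of_irrational hp hx hirr hfin

/-- The closure of an orbit is invariant. -/
theorem dense_orbit (hp : 1 < p) (hq : 1 < q) (h : Independent p q) {α : ℝ} (hα : Irrational α)
    (x : ℝ) {ε : ℝ} (hε : 0 < ε) :
    ∃ m n : ℕ, ∃ k : ℤ, |(p : ℝ) ^ m * (q : ℝ) ^ n * α + k - x| < ε := by
  set S : Set ℝ := {y | ∃ m n : ℕ, ∃ k : ℤ, (p : ℝ) ^ m * (q : ℝ) ^ n * α + k = y} with hS
  have hmap : ∀ {f : ℝ → ℝ}, Continuous f → (∀ y ∈ S, f y ∈ S) →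
      ∀ y ∈ closure S, f y ∈ closure S :=
    fun hf hfS y hy => map_mem_closure hf hy hfS
  have hInv : Inv p q (closure S) :=
    { closed := isClosed_closure
      translate := fun y hy k => hmap (f := fun y => y + (k : ℝ))
        (continuous_id.add continuous_const) (fun y hy => by
          obtain ⟨m, n, l, rfl⟩ := hy
          exact ⟨m, n, l + k, by push_cast; ring⟩) y hy
      left := hmap (continuous_const.mul continuous_id) fun y hy => by
        obtain ⟨m, n, l, rfl⟩ := hy
        exact ⟨m + 1, n, p * l, by simp; ring⟩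
      right := hmap (continuous_const.mul continuous_id) fun y hy => by
        obtain ⟨m, n, l, rfl⟩ := hy
        exact ⟨m, n + 1, q * l, by simp; ring⟩ }
  have huniv := eq_univ_of_infinite hp hq h hInv
    (hInv.infinite_of_irrational hp (subset_closure ⟨0, 0, 0, by simp⟩) hα)
  obtain ⟨y, ⟨m, n, k, rfl⟩, hlt⟩ :=
    Metric.mem_closure_iff.1 (huniv.symm ▸ Set.mem_univ x : x ∈ closure S) ε hε
  exact ⟨m, n, k, by rwa [dist_comm, Real.dist_eq] at hlt⟩

/-- **Furstenberg's theorem on the circle.** -/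
theorem finite_or_eq_univ (hp : 1 < p) (hq : 1 < q) (h : Independent p q)
    {C : Set UnitAddCircle} (hC : IsClosed C) (hCp : ∀ x ∈ C, p • x ∈ C)
    (hCq : ∀ x ∈ C, q • x ∈ C) : C.Finite ∨ C = Set.univ := by
  set A : Set ℝ := (fun y : ℝ => (y : UnitAddCircle)) ⁻¹' C with hAdef
  have hmul : ∀ (c : ℕ) (y : ℝ), (((c : ℝ) * y : ℝ) : UnitAddCircle) = c • (y : UnitAddCircle) :=
    fun c y => by rw [← nsmul_eq_mul, AddCircle.coe_nsmul]
  have hint : ∀ k : ℤ, (((k : ℤ) : ℝ) : UnitAddCircle) = 0 := fun k =>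
    (AddCircle.coe_eq_zero_iff (1 : ℝ)).2 ⟨k, by simp⟩
  have hA : Inv p q A :=
    { closed := hC.preimage (AddCircle.continuous_mk' (1 : ℝ))
      translate := fun y hy k => by
        show ((y + k : ℝ) : UnitAddCircle) ∈ C
        rw [AddCircle.coe_add, hint, add_zero]
        exact hy
      left := fun y hy => by
        show (((p : ℝ) * y : ℝ) : UnitAddCircle) ∈ C
        rw [hmul]
        exact hCp _ hy
      right := fun y hy => by
        show (((q : ℝ) * y : ℝ) : UnitAddCircle) ∈ C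
        rw [hmul]
        exact hCq _ hy }
  rcases (A ∩ Set.Ico 0 1).finite_or_infinite with hfin | hinf
  · refine Or.inl ((hfin.image fun y : ℝ => (y : UnitAddCircle)).subset fun c hc => ?_)
    obtain ⟨y, rfl⟩ := QuotientAddGroup.mk_surjective c
    have e : ((Int.fract y : ℝ) : UnitAddCircle) = y := by
      rw [Int.fract, AddCircle.coe_sub, hint, sub_zero]
    exact ⟨Int.fract y, ⟨hA.fract_mem hc, Int.fract_nonneg _, Int.fract_lt_one _⟩, e⟩
  · refine Or.inr (Set.eq_univ_of_forall fun c => ?_)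
    obtain ⟨y, rfl⟩ := QuotientAddGroup.mk_surjective c
    have := eq_univ_of_infinite hp hq h hA hinf
    exact (this.symm ▸ Set.mem_univ y : y ∈ A)

end FA.TimesTwoTimesThree

end
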